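import Mathlib

set_option autoImplicit false

namespace Fermat.Agent.S57

open IsLocalRing

theorem basis_mem_smul_top_iff {A N ι : Type*} [CommRing A] [AddCommGroup N] [Module A N]
    (e : Module.Basis ι A N) (I : Ideal A) (x : N) :
    x ∈ I • (⊤ : Submodule A N) ↔ ∀ i, e.repr x i ∈ I := by
  rw [← e.span_eq, Submodule.mem_ideal_smul_span_iff_exists_sum]
  constructor
  · rintro ⟨a, ha, rfl⟩ i
    have : e.repr (a.sum fun i c => c • e i) = a := by
      simpa [Finsupp.linearCombination_apply] using e.repr_linearCombination a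
    rw [this]
    exact ha i
  · intro h
    refine ⟨e.repr x, h, ?_⟩
    simpa [Finsupp.linearCombination_apply] using e.linearCombination_repr x

theorem descent {A R N M : Type*} [CommRing A] [CommRing R] [AddCommGroup N] [Module A N]
    [AddCommGroup M] [Module R M] [Nontrivial M] [Module.Free A N]
    (ψ : A →+* R) (hψ : Function.Surjective ψ) (I : Ideal A) (hI : I ≤ RingHom.ker ψ)
    (π : N →+ M) (hπs : ∀ (f : A) (x : N), π (f • x) = ψ f • π x) (hπ : Function.Surjective π)
    (hker : ∀ x : N, π x = 0 ↔ x ∈ I • (⊤ : Submodule A N)) :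
    Module.Free R M ∧ Module.annihilator R M = ⊥ ∧ RingHom.ker ψ = I := by
  classical
  let e := Module.Free.chooseBasis A N
  have hN : Nontrivial N := hπ.nontrivial
  have hι : Nonempty (Module.Free.ChooseBasisIndex A N) := e.index_nonempty
  have hsum : ∀ (s : Finset (Module.Free.ChooseBasisIndex A N))
      (f : Module.Free.ChooseBasisIndex A N → A),
      π (∑ i ∈ s, f i • e i) = ∑ i ∈ s, ψ (f i) • π (e i) := by
    intro s f
    rw [map_sum]
    exact Finset.sum_congr rfl fun i _ => hπs _ _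
  have hli : LinearIndependent R (fun j => π (e j)) := by
    rw [linearIndependent_iff']
    intro s g hg i hi
    obtain ⟨f, hf⟩ : ∃ f : Module.Free.ChooseBasisIndex A N → A, ∀ i, ψ (f i) = g i :=
      ⟨fun i => (hψ (g i)).choose, fun i => (hψ (g i)).choose_spec⟩
    have h1 : π (∑ i ∈ s, f i • e i) = 0 := by
      rw [hsum, ← hg]
      exact Finset.sum_congr rfl fun i _ => by rw [hf]
    have h2 := (basis_mem_smul_top_iff e I _).mp ((hker _).mp h1) i
    have h3 : e.repr (∑ i ∈ s, f i • e i) i = f i := by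
      simp [Finsupp.single_apply, hi]
    rw [h3] at h2
    rw [← hf i]
    exact hI h2
  have hsp : ⊤ ≤ Submodule.span R (Set.range fun j => π (e j)) := by
    intro m _
    obtain ⟨x, rfl⟩ := hπ m
    have hx : x = ∑ i ∈ (e.repr x).support, e.repr x i • e i := by
      conv_lhs => rw [← e.linearCombination_repr x, Finsupp.linearCombination_apply, Finsupp.sum]
    rw [hx, hsum]
    exact Submodule.sum_mem _ fun i _ =>
      Submodule.smul_mem _ _ (Submodule.subset_span ⟨i, rfl⟩)
  have hfree : Module.Free R M := Module.Free.of_basis (Module.Basis.mk hli hsp)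
  refine ⟨hfree, Module.annihilator_eq_bot.mpr inferInstance, le_antisymm ?_ hI⟩
  intro f hf
  obtain ⟨j⟩ := hι
  have h1 : π (f • e j) = 0 := by
    rw [hπs, RingHom.mem_ker.mp hf, zero_smul]
  have h2 := (basis_mem_smul_top_iff e I _).mp ((hker _).mp h1) j
  simpa using h2

theorem isArtinian_of_span_of_torsion {𝒪 : Type*} [CommRing 𝒪] [IsLocalRing 𝒪] {V : Type*}
    [AddCommGroup V] [Module 𝒪 V] {d : ℕ} (v : Fin d → V)
    (hspan : ∀ x : V, ∃ c : Fin d → 𝒪, x = ∑ i, c i • v i)
    (htors : ∀ a ∈ maximalIdeal 𝒪, ∀ x : V, a • x = 0) : IsArtinian 𝒪 V := by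
  let f : (i : Fin d) → (𝒪 ⧸ maximalIdeal 𝒪) →ₗ[𝒪] V := fun i =>
    Submodule.liftQ (maximalIdeal 𝒪) (LinearMap.toSpanSingleton 𝒪 V (v i))
      (fun a ha => by simp [htors a ha])
  let g : (Fin d → 𝒪 ⧸ maximalIdeal 𝒪) →ₗ[𝒪] V := LinearMap.lsum 𝒪 _ 𝒪 f
  have hg : Function.Surjective g := by
    intro x
    obtain ⟨c, rfl⟩ := hspan x
    refine ⟨fun i => Submodule.Quotient.mk (c i), ?_⟩
    simp only [g, LinearMap.lsum_apply, LinearMap.sum_apply, LinearMap.comp_apply,
      LinearMap.proj_apply]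
    refine Finset.sum_congr rfl fun i _ => ?_
    simp only [f, Submodule.liftQ_apply, LinearMap.toSpanSingleton_apply]
  have hs : IsSimpleModule 𝒪 (𝒪 ⧸ maximalIdeal 𝒪) :=
    isSimpleModule_iff_quot_maximal.mpr ⟨maximalIdeal 𝒪, inferInstance, ⟨LinearEquiv.refl _ _⟩⟩
  exact isArtinian_of_surjective _ g hg

end Fermat.Agent.S57
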