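import Mathlib

set_option autoImplicit false

namespace Fermat.Agent.S57

open MvPowerSeries RingTheory.Sequence
open scoped Pointwise

theorem isWeaklyRegular_cons_of_surjective {A B : Type*} [CommRing A] [CommRing B] (ε : A →+* B)
    (hε : Function.Surjective ε) (x : A) (hx : IsSMulRegular A x)
    (hker : RingHom.ker ε = Ideal.span {x})
    (as : List A) (h : IsWeaklyRegular B (as.map ε)) : IsWeaklyRegular A (x :: as) := by
  rw [isWeaklyRegular_cons_iff]
  refine ⟨hx, ?_⟩
  have hx' : (x • (⊤ : Submodule A A)) = RingHom.ker ε := by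
    rw [hker, ← Submodule.ideal_span_singleton_smul]
    simp
  let e : QuotSMulTop x A ≃+ B :=
    (Submodule.quotEquivOfEq _ _ hx').toAddEquiv.trans
      (RingHom.quotientKerEquivOfSurjective hε).toAddEquiv
  have he : ∀ y : A, e (Submodule.Quotient.mk y) = ε y := fun y => rfl
  refine (e.isWeaklyRegular_congr (List.forall₂_map_right_iff.mpr
    (List.forall₂_same.mpr fun a _ y => ?_))).mpr h
  induction y using Submodule.Quotient.induction_on with
  | _ y =>
    rw [← Submodule.Quotient.mk_smul, he, he, smul_eq_mul, map_mul, smul_eq_mul]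

variable (𝒪 : Type*) [CommRing 𝒪]

noncomputable def eps (r : ℕ) : MvPowerSeries (Fin (r + 1)) 𝒪 →+* MvPowerSeries (Fin r) 𝒪 :=
  (PowerSeries.constantCoeff (R := MvPowerSeries (Fin r) 𝒪)).comp
    (finSuccEquiv 𝒪 r).toRingEquiv.toRingHom

theorem eps_apply (r : ℕ) (f : MvPowerSeries (Fin (r + 1)) 𝒪) :
    eps 𝒪 r f = PowerSeries.constantCoeff (finSuccEquiv 𝒪 r f) := rfl

@[simp] theorem eps_X_zero (r : ℕ) : eps 𝒪 r (X 0) = 0 := by
  simp [eps_apply]

@[simp] theorem eps_X_succ (r : ℕ) (i : Fin r) : eps 𝒪 r (X i.succ) = X i := by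
  simp [eps_apply]

@[simp] theorem eps_C (r : ℕ) (a : 𝒪) : eps 𝒪 r (C a) = C a := by
  simp [eps_apply]

theorem eps_surjective (r : ℕ) : Function.Surjective (eps 𝒪 r) := by
  intro g
  refine ⟨(finSuccEquiv 𝒪 r).symm (PowerSeries.C g), ?_⟩
  simp [eps_apply]

theorem ker_eps (r : ℕ) : RingHom.ker (eps 𝒪 r) = Ideal.span {X 0} := by
  ext f
  rw [RingHom.mem_ker, eps_apply, ← PowerSeries.X_dvd_iff, Ideal.mem_span_singleton]
  constructor
  · rintro ⟨g, hg⟩
    refine ⟨(finSuccEquiv 𝒪 r).symm g, ?_⟩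
    apply (finSuccEquiv 𝒪 r).injective
    simp [hg]
  · rintro ⟨g, rfl⟩
    exact ⟨finSuccEquiv 𝒪 r g, by simp⟩

theorem constantCoeff_eps (r : ℕ) (f : MvPowerSeries (Fin (r + 1)) 𝒪) :
    constantCoeff (eps 𝒪 r f) = constantCoeff f := by
  have := coeff_coeff_finSuccEquiv (R := 𝒪) (n := r) f (k := 0) (x := 0)
  simpa [eps_apply] using this

theorem ker_constantCoeff (r : ℕ) :
    RingHom.ker (constantCoeff (σ := Fin r) (R := 𝒪)) = Ideal.span (Set.range X) := by
  induction r with
  | zero =>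
    have h1 : (Set.range (X : Fin 0 → MvPowerSeries (Fin 0) 𝒪)) = ∅ := Set.range_eq_empty _
    rw [h1, Ideal.span_empty]
    ext f
    rw [RingHom.mem_ker, Ideal.mem_bot]
    constructor
    · intro h
      apply (isEmptyEquiv (Fin 0) 𝒪).injective
      simpa using h
    · rintro rfl
      simp
  | succ r ih =>
    have hmap : Ideal.map (eps 𝒪 r) (Ideal.span (Set.range X)) = Ideal.span (Set.range X) := by
      rw [Ideal.map_span]
      apply le_antisymm
      · rw [Ideal.span_le]
        rintro _ ⟨_, ⟨i, rfl⟩, rfl⟩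
        induction i using Fin.cases with
        | zero => simp
        | succ i =>
          rw [eps_X_succ]
          exact Ideal.subset_span ⟨i, rfl⟩
      · rw [Ideal.span_le]
        rintro _ ⟨i, rfl⟩
        exact Ideal.subset_span ⟨X i.succ, ⟨i.succ, rfl⟩, eps_X_succ 𝒪 r i⟩
    have hle : RingHom.ker (eps 𝒪 r) ≤ Ideal.span (Set.range X) := by
      rw [ker_eps, Ideal.span_le, Set.singleton_subset_iff]
      exact Ideal.subset_span ⟨0, rfl⟩
    have hcm := Ideal.comap_map_of_surjective (eps 𝒪 r) (eps_surjective 𝒪 r)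
      (Ideal.span (Set.range X))
    rw [hmap, ← RingHom.ker_eq_comap_bot, sup_eq_left.mpr hle, ← ih] at hcm
    rw [← hcm]
    ext f
    simp [RingHom.mem_ker, constantCoeff_eps]

theorem ofList_ofFn {A : Type*} [CommRing A] {n : ℕ} (f : Fin n → A) :
    Ideal.ofList (List.ofFn f) = Ideal.span (Set.range f) := by
  unfold Ideal.ofList
  congr 1
  ext x
  rw [Set.mem_ofPred_eq, List.mem_ofFn, Set.mem_range]

variable {𝒪}

theorem isWeaklyRegular_X_C [IsDomain 𝒪] (a : 𝒪) (ha : a ≠ 0) (r : ℕ) :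
    IsWeaklyRegular (MvPowerSeries (Fin r) 𝒪)
      (List.ofFn (X : Fin r → MvPowerSeries (Fin r) 𝒪) ++ [C a]) := by
  induction r with
  | zero =>
    rw [List.ofFn_zero, List.nil_append, isWeaklyRegular_singleton_iff]
    have hC : (C a : MvPowerSeries (Fin 0) 𝒪) ≠ 0 := by
      intro h
      apply ha
      have := congrArg constantCoeff h
      simpa using this
    exact mul_right_injective₀ hC
  | succ r ih =>
    rw [List.ofFn_succ, List.cons_append]
    refine isWeaklyRegular_cons_of_surjective (eps 𝒪 r) (eps_surjective 𝒪 r) _ ?_ (ker_eps 𝒪 r) _ ?_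
    · exact mul_right_injective₀ (nonZeroDivisors.ne_zero X_mem_nonzeroDivisors)
    · have : List.map (eps 𝒪 r) ((List.ofFn fun i : Fin r => X i.succ) ++ [C a])
          = List.ofFn X ++ [C a] := by
        rw [List.map_append, List.map_ofFn]
        congr 1
        · congr 1
          ext1 i
          simp
        · simp
      rw [this]
      exact ih

theorem ofList_X_C_eq_maximalIdeal [IsDomain 𝒪] [IsDiscreteValuationRing 𝒪] (ϖ : 𝒪)
    (hϖ : Irreducible ϖ) (r : ℕ) :
    Ideal.ofList (List.ofFn (X : Fin r → MvPowerSeries (Fin r) 𝒪) ++ [C ϖ]) =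
      IsLocalRing.maximalIdeal (MvPowerSeries (Fin r) 𝒪) := by
  rw [Ideal.ofList_append, ofList_ofFn, Ideal.ofList_singleton, ← ker_constantCoeff]
  ext f
  rw [IsLocalRing.mem_maximalIdeal, mem_nonunits_iff, isUnit_iff_constantCoeff,
    ← mem_nonunits_iff, ← IsLocalRing.mem_maximalIdeal, hϖ.maximalIdeal_eq,
    Ideal.mem_span_singleton]
  constructor
  · intro h
    obtain ⟨g, hg, h', hh', rfl⟩ := Submodule.mem_sup.mp h
    obtain ⟨u, rfl⟩ := Ideal.mem_span_singleton.mp hh'
    rw [RingHom.mem_ker] at hg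
    simp [hg]
  · rintro ⟨u, hu⟩
    refine Submodule.mem_sup.mpr ⟨f - C ϖ * C u, ?_, C ϖ * C u, ?_, by ring⟩
    · rw [RingHom.mem_ker]
      simp [hu]
    · exact Ideal.mem_span_singleton.mpr ⟨C u, rfl⟩

end Fermat.Agent.S57
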