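import Mathlib

set_option autoImplicit false

namespace Fermat.Agent.S57

open CategoryTheory RingTheory.Sequence IsLocalRing

universe u

variable {A : Type u} [CommRing A] [IsLocalRing A]

theorem hasProjectiveDimensionLT_of_isFiniteLength (n : ℕ)
    (hk : HasProjectiveDimensionLT (ModuleCat.of A (A ⧸ maximalIdeal A)) n)
    (L : Type u) [AddCommGroup L] [Module A L] (hL : IsFiniteLength A L) :
    HasProjectiveDimensionLT (ModuleCat.of A L) n := by
  induction hL with
  | of_subsingleton =>
    rename_i M _ _ _
    have h0 : Limits.IsZero (ModuleCat.of A M) := ModuleCat.isZero_of_subsingleton _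
    have := h0.hasProjectiveDimensionLT_zero
    exact hasProjectiveDimensionLT_of_ge _ 0 n (Nat.zero_le _)
  | of_simple_quotient hN ih =>
    rename_i M _ _ N hs
    obtain ⟨I, hI, ⟨e⟩⟩ := isSimpleModule_iff_quot_maximal.mp hs
    have hI' : I = maximalIdeal A := IsLocalRing.eq_maximalIdeal hI
    subst hI'
    have h3 : HasProjectiveDimensionLT (ModuleCat.of A (M ⧸ N)) n :=
      hasProjectiveDimensionLT_of_iso e.symm.toModuleIso n
    let S : ShortComplex (ModuleCat.{u} A) :=
      ModuleCat.shortComplexOfCompEqZero N.subtype N.mkQ (by ext; simp)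
    have hS : S.ShortExact := by
      refine ModuleCat.shortComplex_shortExact S ?_ ?_ ?_
      · intro x
        simp [S]
      · exact N.injective_subtype
      · exact N.mkQ_surjective
    exact hS.hasProjectiveDimensionLT_X₂ n ih h3

variable [IsNoetherianRing A]

theorem free_of_isWeaklyRegular
    (ts : List A) (hts : IsRegular A ts) (htm : Ideal.ofList ts = maximalIdeal A)
    (N : Type u) [AddCommGroup N] [Module A N] [Module.Finite A N] [Nontrivial N]
    (as : List A) (has : IsWeaklyRegular N as) (hmem : ∀ a ∈ as, a ∈ maximalIdeal A)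
    (hlen : ts.length ≤ as.length)
    (hfl : IsFiniteLength A (N ⧸ Ideal.ofList as • (⊤ : Submodule A N))) :
    Module.Free A N := by
  have h1 := ModuleCat.projectiveDimension_quotient_eq_length.{u} ts hts
  have hk : HasProjectiveDimensionLT (ModuleCat.of A (A ⧸ maximalIdeal A)) (ts.length + 1) := by
    have h2 : HasProjectiveDimensionLE
        (ModuleCat.of A (Shrink.{u} (A ⧸ Ideal.ofList ts))) ts.length :=
      (projectiveDimension_le_iff _ _).mp h1.le
    rw [← htm]
    exact hasProjectiveDimensionLT_of_iso (Shrink.linearEquiv A (A ⧸ Ideal.ofList ts)).toModuleIso _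
  have h3 := hasProjectiveDimensionLT_of_isFiniteLength _ hk _ hfl
  have h4 : projectiveDimension (ModuleCat.of A (N ⧸ Ideal.ofList as • (⊤ : Submodule A N)))
      ≤ ts.length := (projectiveDimension_le_iff _ _).mpr h3
  have h5 := ModuleCat.projectiveDimension_quotient_eq_add_length_of_isWeaklyRegular
    (ModuleCat.of A N) as has hmem
  have h6 : projectiveDimension (ModuleCat.of A N) + (as.length : ℕ) ≤ 0 + (as.length : ℕ) := by
    rw [zero_add]
    calc projectiveDimension (ModuleCat.of A N) + (as.length : ℕ)
        = projectiveDimension (ModuleCat.of A (N ⧸ Ideal.ofList as • (⊤ : Submodule A N))) :=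
          h5.symm
      _ ≤ ts.length := h4
      _ ≤ as.length := by exact_mod_cast hlen
  have h7 : projectiveDimension (ModuleCat.of A N) ≤ (0 : ℕ) := by
    simpa using ENat.WithBot.add_le_add_natCast_right_iff.mp h6
  have h8 : HasProjectiveDimensionLE (ModuleCat.of A N) 0 := (projectiveDimension_le_iff _ _).mp h7
  have h9 : Projective (ModuleCat.of A N) := (projective_iff_hasProjectiveDimensionLE_zero _).mpr h8
  have h10 : Module.Projective A N := (IsProjective.iff_projective _).mpr h9
  exact Module.free_of_flat_of_isLocalRing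

end Fermat.Agent.S57
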