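import Fermat.Agent.S57.FreeOfRegular

set_option autoImplicit false

namespace Fermat.Agent.S57

open IsLocalRing Module RingTheory.Sequence

universe u

lemma isArtinian_of_torsion_maximalIdeal {S : Type*} [CommRing S] [IsLocalRing S]
    (Q : Type*) [AddCommGroup Q] [Module S Q] [Module.Finite S Q]
    (h : Module.IsTorsionBySet S Q (maximalIdeal S)) : IsArtinian S Q := by
  let _ := h.module
  let _ : Field (S ⧸ maximalIdeal S) := Ideal.Quotient.field _
  have h1 : IsSemisimpleModule (S ⧸ maximalIdeal S) Q := inferInstance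
  have h2 : IsSemisimpleModule S Q := h.isSemisimpleModule_iff.mp h1
  infer_instance

theorem free_of_algebra {S A : Type u} [CommRing S] [IsLocalRing S] [CommRing A] [IsLocalRing A]
    [IsNoetherianRing A] [Algebra S A]
    (zs : List S) (hzs : IsWeaklyRegular S zs) (hzm : Ideal.ofList zs = maximalIdeal S)
    (xs : List A) (hxs : IsRegular A xs) (hxm : Ideal.ofList xs = maximalIdeal A)
    (hlen : zs.length = xs.length)
    (hloc : ∀ z ∈ zs, algebraMap S A z ∈ maximalIdeal A)
    (N : Type u) [AddCommGroup N] [Module A N] [Module S N] [IsScalarTower S A N]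
    [Module.Free S N] [Module.Finite S N] : Module.Free A N := by
  have hfin : Module.Finite A N := Module.Finite.of_restrictScalars_finite S A N
  have hreg : IsWeaklyRegular N zs :=
    ((TensorProduct.rid S N).isWeaklyRegular_congr zs).mp hzs.isWeaklyRegular_lTensor
  have hreg' : IsWeaklyRegular N (zs.map (algebraMap S A)) :=
    (isWeaklyRegular_map_algebraMap_iff A N zs).mpr hreg
  refine free_of_isRegular xs hxs hxm N (zs.map (algebraMap S A)) hreg' ?_ (by simpa using hlen) ?_
  · intro y hy
    obtain ⟨z, hz, rfl⟩ := List.mem_map.mp hy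
    exact hloc z hz
  · rw [isFiniteLength_iff_isNoetherian_isArtinian]
    refine ⟨inferInstance, ?_⟩
    set P : Submodule A N := Ideal.ofList (zs.map (algebraMap S A)) • (⊤ : Submodule A N) with hP
    have hfinQ : Module.Finite S (N ⧸ P) :=
      Module.Finite.of_surjective (P.mkQ.restrictScalars S) P.mkQ_surjective
    have htors : Module.IsTorsionBySet S (N ⧸ P) (maximalIdeal S) := by
      rw [← hzm, ← Module.isTorsionBySet_iff_is_torsion_by_span]
      rintro x ⟨z, hz⟩
      obtain ⟨n, rfl⟩ := P.mkQ_surjective x
      have h1 : algebraMap S A z • n ∈ P :=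
        Submodule.smul_mem_smul (Ideal.subset_span (List.mem_map.mpr ⟨z, hz, rfl⟩))
          Submodule.mem_top
      have h2 : (z • P.mkQ n : N ⧸ P) = P.mkQ (algebraMap S A z • n) := by
        rw [algebraMap_smul]
        rfl
      change z • P.mkQ n = 0
      rw [h2]
      exact (Submodule.Quotient.mk_eq_zero P).mpr h1
    exact isArtinian_of_tower S (isArtinian_of_torsion_maximalIdeal _ htors)

theorem free_of_basis_via {S A : Type u} [CommRing S] [IsLocalRing S] [CommRing A] [IsLocalRing A]
    [IsNoetherianRing A] (φ : S →+* A)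
    (zs : List S) (hzs : IsWeaklyRegular S zs) (hzm : Ideal.ofList zs = maximalIdeal S)
    (xs : List A) (hxs : IsRegular A xs) (hxm : Ideal.ofList xs = maximalIdeal A)
    (hlen : zs.length = xs.length)
    (hloc : ∀ z ∈ zs, φ z ∈ maximalIdeal A)
    (N : Type u) [AddCommGroup N] [Module A N] {d : ℕ} (b : Fin d → N)
    (b_span : ∀ x : N, ∃ c : Fin d → S, x = ∑ i, φ (c i) • b i)
    (b_rel : ∀ c : Fin d → S, ∑ i, φ (c i) • b i = 0 → ∀ i, c i = 0) : Module.Free A N := by
  let _ : Algebra S A := φ.toAlgebra
  let _ : Module S N := Module.compHom N φ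
  have hsmul : ∀ (s : S) (n : N), s • n = φ s • n := fun _ _ => rfl
  have htower : IsScalarTower S A N := ⟨fun s a n => by
    rw [hsmul, Algebra.smul_def, mul_smul]; rfl⟩
  have hli : LinearIndependent S b := by
    rw [Fintype.linearIndependent_iff]
    intro c hc
    exact b_rel c (by simpa [hsmul] using hc)
  have hsp : ⊤ ≤ Submodule.span S (Set.range b) := by
    intro x _
    obtain ⟨c, rfl⟩ := b_span x
    refine Submodule.sum_mem _ fun i _ => ?_
    rw [← hsmul]
    exact Submodule.smul_mem _ _ (Submodule.subset_span ⟨i, rfl⟩)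
  let B : Basis (Fin d) S N := Basis.mk hli hsp
  have hfree : Module.Free S N := Module.Free.of_basis B
  have hfin : Module.Finite S N := Module.Finite.of_basis B
  exact free_of_algebra zs hzs hzm xs hxs hxm hlen hloc N

end Fermat.Agent.S57
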