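import Fermat.Statements.S57
import Fermat.Agent.S57.Transport

set_option autoImplicit false

namespace Fermat.Agent.S57

open Module

lemma repr_mem_of_mem_smul_top {A : Type*} [CommRing A] {N : Type*} [AddCommGroup N] [Module A N]
    {ι : Type*} (B : Basis ι A N) (I : Ideal A) {x : N}
    (hx : x ∈ I • (⊤ : Submodule A N)) (j : ι) : B.repr x j ∈ I := by
  induction hx using Submodule.smul_induction_on' with
  | smul r hr n _ =>
    simpa using I.mul_mem_right _ hr
  | add x _ y _ hx hy =>
    simpa using I.add_mem hx hy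

theorem conclusion_of_free
    {𝒪 : Type} [CommRing 𝒪]
    {r : ℕ} {R : Type} [CommRing R] [Algebra 𝒪 R]
    {M : Type} [AddCommGroup M] [Module R M] [Nontrivial M]
    {J : Ideal (MvPowerSeries (Fin r) 𝒪)}
    (L : Algebra.PatchingLevel 𝒪 r R M J) (hfree : Module.Free (MvPowerSeries (Fin r) 𝒪) L.N) :
    Module.Free R M ∧ Module.annihilator R M = ⊥ ∧
      RingHom.ker L.ψ = Ideal.span (Set.range fun i : Fin r => L.φ (MvPowerSeries.X i)) := by
  set I : Ideal (MvPowerSeries (Fin r) 𝒪) :=
    Ideal.span (Set.range fun i : Fin r => L.φ (MvPowerSeries.X i)) with hI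
  let B := Module.Free.chooseBasis (MvPowerSeries (Fin r) 𝒪) L.N
  have hIker : I ≤ RingHom.ker L.ψ := by
    rw [hI, Ideal.span_le]
    rintro _ ⟨i, rfl⟩
    exact L.ψ_φ_X i
  have hπsum : ∀ (s : Finset _) (g : _ → MvPowerSeries (Fin r) 𝒪),
      L.π (∑ i ∈ s, g i • B i) = ∑ i ∈ s, L.ψ (g i) • L.π (B i) := by
    intro s g
    rw [map_sum]
    exact Finset.sum_congr rfl fun i _ => L.π_smul _ _
  have hli : LinearIndependent R (fun i => L.π (B i)) := by
    rw [linearIndependent_iff']
    intro s g hg i hi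
    choose g' hg' using fun i => L.ψ_surjective (g i)
    have h1 : L.π (∑ i ∈ s, g' i • B i) = 0 := by
      rw [hπsum, ← hg]
      exact Finset.sum_congr rfl fun i _ => by rw [hg']
    have h2 := repr_mem_of_mem_smul_top B I ((L.ker_π _).mp h1) i
    have h3 : B.repr (∑ i ∈ s, g' i • B i) i = g' i := by
      simp [Finsupp.single_apply, hi]
    rw [h3] at h2
    rw [← hg']
    exact hIker h2
  have hsp : ⊤ ≤ Submodule.span R (Set.range fun i => L.π (B i)) := by
    intro m _
    obtain ⟨x, rfl⟩ := L.π_surjective m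
    rw [← B.linearCombination_repr x, Finsupp.linearCombination_apply, Finsupp.sum, hπsum]
    exact Submodule.sum_mem _ fun i _ =>
      Submodule.smul_mem _ _ (Submodule.subset_span ⟨i, rfl⟩)
  have hfreeM : Module.Free R M := Module.Free.of_basis (Basis.mk hli hsp)
  refine ⟨hfreeM, Module.annihilator_eq_bot.mpr inferInstance, le_antisymm ?_ hIker⟩
  intro a ha
  have hne : Nonempty (Module.Free.ChooseBasisIndex (MvPowerSeries (Fin r) 𝒪) L.N) := by
    by_contra hemp
    rw [not_nonempty_iff] at hemp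
    have hsub : Subsingleton L.N := B.repr.toEquiv.subsingleton
    obtain ⟨m, hm⟩ := exists_ne (0 : M)
    obtain ⟨x, rfl⟩ := L.π_surjective m
    exact hm (by rw [Subsingleton.elim x 0, map_zero])
  obtain ⟨j⟩ := hne
  have h1 : L.π (a • B j) = 0 := by
    rw [L.π_smul, (RingHom.mem_ker).mp ha, zero_smul]
  have h2 := repr_mem_of_mem_smul_top B I ((L.ker_π _).mp h1) j
  simpa using h2

end Fermat.Agent.S57
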