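import Mathlib

set_option autoImplicit false

namespace Fermat.Agent.S57

open CategoryTheory Abelian IsLocalRing Module RingTheory.Sequence

universe u

variable {A : Type u} [CommRing A] [IsLocalRing A] [IsNoetherianRing A]

omit [IsNoetherianRing A] in
lemma hasProjDimLT_of_isFiniteLength (n : ℕ)
    (hk : HasProjectiveDimensionLT (ModuleCat.of A (A ⧸ maximalIdeal A)) n)
    (L : Type u) [AddCommGroup L] [Module A L] (hL : IsFiniteLength A L) :
    HasProjectiveDimensionLT (ModuleCat.of A L) n := by
  induction hL with
  | @of_subsingleton L _ _ _ =>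
    have hz : Limits.IsZero (ModuleCat.of A L) := ModuleCat.isZero_of_subsingleton _
    have := hz.hasProjectiveDimensionLT_zero
    exact hasProjectiveDimensionLT_of_ge _ 0 n (Nat.zero_le _)
  | @of_simple_quotient L _ _ K hs _ ih =>
    obtain ⟨m, hm, ⟨e⟩⟩ := isSimpleModule_iff_quot_maximal.mp hs
    have hm' : m = maximalIdeal A := IsLocalRing.eq_maximalIdeal hm
    subst hm'
    have h3 : HasProjectiveDimensionLT (ModuleCat.of A (L ⧸ K)) n :=
      hasProjectiveDimensionLT_of_iso (e.symm.toModuleIso) n
    let S : ShortComplex (ModuleCat.{u} A) :=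
      ModuleCat.shortComplexOfCompEqZero K.subtype K.mkQ (by ext x; simp)
    have hS : S.ShortExact := by
      refine ModuleCat.shortComplex_shortExact S ?_ K.injective_subtype K.mkQ_surjective
      intro x
      simp [S]
    exact hS.hasProjectiveDimensionLT_X₂ n ih h3

theorem free_of_isRegular (xs : List A) (hxs : IsRegular A xs)
    (hxm : Ideal.ofList xs = maximalIdeal A)
    (N : Type u) [AddCommGroup N] [Module A N] [Module.Finite A N]
    (ys : List A) (hys : IsWeaklyRegular N ys) (hym : ∀ y ∈ ys, y ∈ maximalIdeal A)
    (hlen : ys.length = xs.length)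
    (hfl : IsFiniteLength A (N ⧸ Ideal.ofList ys • (⊤ : Submodule A N))) :
    Module.Free A N := by
  rcases subsingleton_or_nontrivial N with hN | hN
  · infer_instance
  have h1 := ModuleCat.projectiveDimension_quotient_eq_length.{u} xs hxs
  have h2 := ModuleCat.projectiveDimension_quotient_eq_add_length_of_isWeaklyRegular
    (ModuleCat.of A N) ys hys hym
  have hk : HasProjectiveDimensionLT (ModuleCat.of A (A ⧸ maximalIdeal A)) (xs.length + 1) := by
    have h3 : projectiveDimension (ModuleCat.of A (A ⧸ maximalIdeal A)) = xs.length := by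
      rw [← h1, hxm]
      exact projectiveDimension_eq_of_iso (Shrink.linearEquiv A _).symm.toModuleIso
    exact (projectiveDimension_le_iff _ _).mp h3.le
  have h4 := hasProjDimLT_of_isFiniteLength _ hk _ hfl
  have h5 : projectiveDimension (ModuleCat.of A (N ⧸ Ideal.ofList ys • (⊤ : Submodule A N)))
      ≤ xs.length := (projectiveDimension_le_iff _ _).mpr h4
  rw [h2, hlen] at h5
  have h6 : projectiveDimension (ModuleCat.of A N) ≤ (0 : ℕ) := by
    rw [← ENat.WithBot.add_le_add_natCast_right_iff (c := xs.length)]
    simpa using h5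
  have h7 : HasProjectiveDimensionLE (ModuleCat.of A N) 0 := (projectiveDimension_le_iff _ _).mp h6
  have h8 : Projective (ModuleCat.of A N) := (projective_iff_hasProjectiveDimensionLE_zero _).mpr h7
  have h9 : Module.Projective A N := (IsProjective.iff_projective (R := A) N).mpr h8
  exact Module.free_of_flat_of_isLocalRing

end Fermat.Agent.S57
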