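import Mathlib

set_option autoImplicit false

namespace Fermat.Agent.S57

open MvPowerSeries RingTheory.Sequence IsLocalRing

variable {σ : Type*} {B : Type*} [CommRing B]

/-- power series all of whose monomials involve a variable of `t` -/
def varIdeal (σ : Type*) (B : Type*) [CommRing B] (t : Set σ) : Ideal (MvPowerSeries σ B) where
  carrier := {f | ∀ m : σ →₀ ℕ, (∀ j ∈ t, m j = 0) → coeff m f = 0}
  add_mem' := by
    intro f g hf hg m hm
    rw [map_add, hf m hm, hg m hm, add_zero]
  zero_mem' := by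
    intro m _
    simp
  smul_mem' := by
    classical
    intro c f hf m hm
    rw [smul_eq_mul, coeff_mul]
    refine Finset.sum_eq_zero fun p hp => ?_
    have hp' : p.1 + p.2 = m := by simpa using hp
    rw [hf p.2 (fun j hj => ?_), mul_zero]
    have h1 := hm j hj
    rw [← hp'] at h1
    simp only [Finsupp.coe_add, Pi.add_apply, Nat.add_eq_zero_iff] at h1
    exact h1.2

lemma mem_varIdeal {t : Set σ} {f : MvPowerSeries σ B} :
    f ∈ varIdeal σ B t ↔ ∀ m : σ →₀ ℕ, (∀ j ∈ t, m j = 0) → coeff m f = 0 := Iff.rfl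

lemma X_mem_varIdeal {t : Set σ} {j : σ} (hj : j ∈ t) : (X j : MvPowerSeries σ B) ∈ varIdeal σ B t := by
  classical
  intro m hm
  rw [coeff_X, if_neg]
  rintro rfl
  simpa using hm j hj

lemma varIdeal_le_span (t : Finset σ) :
    varIdeal σ B (t : Set σ) ≤ Ideal.span ((fun j => (X j : MvPowerSeries σ B)) '' (t : Set σ)) := by
  classical
  induction t using Finset.induction_on with
  | empty =>
    intro f hf
    have : f = 0 := by
      ext m
      simpa using hf m (by simp)
    simp [this]
  | insert j t hj ih =>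
    intro f hf
    let h : MvPowerSeries σ B := fun m => if m j = 0 then coeff m f else 0
    have hcoeff : ∀ m, coeff m h = if m j = 0 then coeff m f else 0 := fun m => rfl
    have h1 : h ∈ varIdeal σ B (t : Set σ) := by
      intro m hm
      rw [hcoeff]
      split_ifs with h0
      · apply hf m
        intro i hi
        simp only [Finset.coe_insert, Set.mem_insert_iff, Finset.mem_coe] at hi
        rcases hi with rfl | hi
        · exact h0
        · exact hm i hi
      · rfl
    have h2 : (X j : MvPowerSeries σ B) ∣ f - h := by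
      rw [X_dvd_iff]
      intro m hm
      rw [map_sub, hcoeff, if_pos hm, sub_self]
    have h3 : f = (f - h) + h := by ring
    rw [h3]
    refine Ideal.add_mem _ ?_ ?_
    · refine Ideal.mem_of_dvd _ h2 (Ideal.subset_span ⟨j, by simp, rfl⟩)
    · refine Ideal.span_mono ?_ (ih h1)
      exact Set.image_mono (by simp)

lemma varIdeal_eq_span (t : Finset σ) :
    varIdeal σ B (t : Set σ) = Ideal.span ((fun j => (X j : MvPowerSeries σ B)) '' (t : Set σ)) := by
  refine le_antisymm (varIdeal_le_span t) ?_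
  rw [Ideal.span_le]
  rintro _ ⟨j, hj, rfl⟩
  exact X_mem_varIdeal hj

lemma mem_varIdeal_of_X_mul_mem {t : Set σ} {j : σ} (hj : j ∉ t) {f : MvPowerSeries σ B}
    (hf : X j * f ∈ varIdeal σ B t) : f ∈ varIdeal σ B t := by
  classical
  intro m hm
  have h1 := hf (Finsupp.single j 1 + m) (by
    intro i hi
    have hij : j ≠ i := fun h => hj (h ▸ hi)
    simp [hm i hi, hij])
  rw [X, coeff_add_monomial_mul, one_mul] at h1
  exact h1

lemma ofList_map_X (l : List σ) :
    Ideal.ofList (l.map fun j => (X j : MvPowerSeries σ B)) = varIdeal σ B {j | j ∈ l} := by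
  classical
  have h := varIdeal_eq_span (B := B) l.toFinset
  have h1 : ((l.toFinset : Finset σ) : Set σ) = {j | j ∈ l} := by ext; simp
  rw [h1] at h
  rw [h, Ideal.ofList]
  congr 1
  ext f
  simp [List.mem_map]

lemma isWeaklyRegular_map_X (l : List σ) (hl : l.Nodup) :
    IsWeaklyRegular (MvPowerSeries σ B) (l.map fun j => (X j : MvPowerSeries σ B)) := by
  rw [isWeaklyRegular_iff]
  intro i hi
  rw [isSMulRegular_quotient_iff_mem_of_smul_mem]
  intro f hf
  rw [smul_eq_mul, Ideal.mul_top, ← List.map_take, ofList_map_X] at hf ⊢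
  have hi' : i < l.length := by simpa using hi
  rw [List.getElem_map, smul_eq_mul] at hf
  refine mem_varIdeal_of_X_mul_mem ?_ hf
  intro hmem
  obtain ⟨k, hk, hkeq⟩ := List.mem_take_iff_getElem.mp hmem
  have hk' : k < i := lt_of_lt_of_le hk (min_le_left _ _)
  have := (hl.getElem_inj_iff).mp hkeq
  omega

theorem exists_regular_of_dvr (𝒪 : Type*) [CommRing 𝒪] [IsDomain 𝒪] [IsDiscreteValuationRing 𝒪]
    (r : ℕ) : ∃ ϖ : 𝒪,
      IsRegular (MvPowerSeries (Fin r) 𝒪)
        (((List.finRange r).map fun j => (X j : MvPowerSeries (Fin r) 𝒪)) ++ [C ϖ]) ∧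
      Ideal.ofList (((List.finRange r).map fun j => (X j : MvPowerSeries (Fin r) 𝒪)) ++ [C ϖ]) =
        maximalIdeal (MvPowerSeries (Fin r) 𝒪) := by
  obtain ⟨ϖ, hϖ⟩ := IsDiscreteValuationRing.exists_irreducible 𝒪
  have hmax : maximalIdeal 𝒪 = Ideal.span {ϖ} := hϖ.maximalIdeal_eq
  have huniv : {j : Fin r | j ∈ List.finRange r} = Set.univ := by ext; simp
  have hmemU : ∀ f : MvPowerSeries (Fin r) 𝒪,
      f ∈ varIdeal (Fin r) 𝒪 Set.univ ↔ constantCoeff f = 0 := by
    intro f
    constructor
    · intro h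
      exact h 0 (by simp)
    · intro h m hm
      have : m = 0 := by ext j; simpa using hm j (Set.mem_univ j)
      rw [this]
      exact h
  have hideal : Ideal.ofList
      (((List.finRange r).map fun j => (X j : MvPowerSeries (Fin r) 𝒪)) ++ [C ϖ]) =
        maximalIdeal (MvPowerSeries (Fin r) 𝒪) := by
    rw [Ideal.ofList_append, ofList_map_X, huniv, Ideal.ofList_singleton]
    ext f
    rw [IsLocalRing.mem_maximalIdeal, mem_nonunits_iff, isUnit_iff_constantCoeff,
      ← mem_nonunits_iff, ← IsLocalRing.mem_maximalIdeal, hmax, Ideal.mem_span_singleton]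
    constructor
    · intro hf
      obtain ⟨g, hg, h, hh, rfl⟩ := Submodule.mem_sup.mp hf
      obtain ⟨c, rfl⟩ := Ideal.mem_span_singleton.mp hh
      rw [map_add, (hmemU g).mp hg, zero_add, map_mul, constantCoeff_C]
      exact Dvd.intro _ rfl
    · rintro ⟨c, hc⟩
      have h3 : f = (f - C ϖ * C c) + C ϖ * C c := by ring
      rw [h3]
      refine Ideal.add_mem _ (Ideal.mem_sup_left ?_) (Ideal.mem_sup_right ?_)
      · rw [hmemU]
        simp [hc]
      · exact Ideal.mul_mem_right _ _ (Ideal.mem_span_singleton_self _)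
  refine ⟨ϖ, ?_, hideal⟩
  refine IsRegular.of_isWeaklyRegular_of_mem_maximalIdeal _ ?_ ?_
  swap
  · rw [isWeaklyRegular_append_iff]
    refine ⟨isWeaklyRegular_map_X _ (List.nodup_finRange r), ?_⟩
    rw [isWeaklyRegular_singleton_iff, isSMulRegular_quotient_iff_mem_of_smul_mem]
    intro f hf
    rw [smul_eq_mul, Ideal.mul_top, ofList_map_X, huniv, hmemU] at hf ⊢
    rw [smul_eq_mul, map_mul, constantCoeff_C] at hf
    exact (mul_eq_zero.mp hf).resolve_left hϖ.ne_zero
  · intro x hx
    rw [← hideal]
    exact Ideal.subset_span hx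

end Fermat.Agent.S57
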